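/-
S56, wall W2-EC, step (D) (cyclic / prime-to-`p` case), `K₀` side (architect: helper54).
DEFINITIONS.  FIXED.

`Γ` a group (in the application `Γ = U ⧸ W`, finite of order prime to `p`), `ω : Γ →* (ZMod p)ˣ` the
cyclotomic character.  Objects are `FinCMod p Γ` (`EC/FinCMod.lean`): finite abelian groups killed by
`p` with an action of `Γ`.

* `homC A B` : the `Γ`-equivariant additive maps `A → B` (an additive subgroup of `A →+ B`);
* `pairC A B = log_p #Hom_Γ(A, B)`;
* `dualObj ω M` : `D M = Hom(M, μ_p)`, `(γ • φ) m = ω γ * φ (γ⁻¹ • m)`;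
* `muObj ω` : `μ_p = ZMod p` with `γ • x = ω γ * x`;
* `muPermObj ω act` : `μ_p[Ω]`, the functions `Ω → ZMod p` with `(γ • f) x = ω γ * f ((act γ)⁻¹ x)`;
* `FinCMod.descend N A htriv` : a finite `H`-module on which `N ⊴ H` acts trivially, as a module
  over `H ⧸ N` (same carrier).
-/
import Fermat.Agent.S56.W2.EC.PermMod

set_option autoImplicit false

noncomputable section

namespace Fermat.Agent.S56.EC

variable {p : ℕ} {Γ : Type} [Group Γ]

/-! ### Equivariant maps -/

/-- The `Γ`-equivariant additive maps. -/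
def homC (A B : FinCMod p Γ) : AddSubgroup (A.carrier →+ B.carrier) where
  carrier := {f | ∀ (γ : Γ) (a : A.carrier), f (γ • a) = γ • f a}
  zero_mem' := fun γ a => by
    show (0 : B.carrier) = γ • (0 : B.carrier)
    rw [smul_zero]
  add_mem' := fun {f g} hf hg γ a => by
    show f (γ • a) + g (γ • a) = γ • (f a + g a)
    rw [hf γ a, hg γ a, smul_add]
  neg_mem' := fun {f} hf γ a => by
    show -f (γ • a) = γ • (-f a)
    rw [hf γ a, smul_neg]

lemma mem_homC {A B : FinCMod p Γ} (f : A.carrier →+ B.carrier) :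
    f ∈ homC A B ↔ ∀ (γ : Γ) (a : A.carrier), f (γ • a) = γ • f a := Iff.rfl

instance finite_addMonoidHom (A B : FinCMod p Γ) : Finite (A.carrier →+ B.carrier) :=
  Finite.of_injective (fun f => (f : A.carrier → B.carrier)) DFunLike.coe_injective

instance finite_homC (A B : FinCMod p Γ) : Finite ↥(homC A B) := inferInstance

/-- **`⟨A, B⟩ = log_p #Hom_Γ(A, B)`.** -/
def pairC (A B : FinCMod p Γ) : ℤ := (Nat.log p (Nat.card ↥(homC A B)) : ℤ)

/-! ### The twisted dual -/

/-- The carrier of `D M = Hom(M, μ_p)`. -/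
def DualMod (_ω : Γ →* (ZMod p)ˣ) (M : FinCMod p Γ) : Type := M.carrier →+ ZMod p

namespace DualMod

variable (ω : Γ →* (ZMod p)ˣ) (M : FinCMod p Γ)

instance : AddCommGroup (DualMod ω M) := inferInstanceAs (AddCommGroup (M.carrier →+ ZMod p))

/-- `Hom(M, ZMod p) → D M`. -/
def of : (M.carrier →+ ZMod p) →+ DualMod ω M := AddMonoidHom.id _

/-- `D M → Hom(M, ZMod p)`. -/
def val : DualMod ω M →+ (M.carrier →+ ZMod p) := AddMonoidHom.id _

variable {ω M}

@[simp] lemma val_of (φ : M.carrier →+ ZMod p) : val ω M (of ω M φ) = φ := rfl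

@[simp] lemma of_val (φ : DualMod ω M) : of ω M (val ω M φ) = φ := rfl

lemma val_injective : Function.Injective (val ω M) := fun _ _ h => h

variable (ω M)

/-- The twisted contragredient action on additive characters. -/
def actHom (γ : Γ) (φ : M.carrier →+ ZMod p) : M.carrier →+ ZMod p where
  toFun m := (ω γ : ZMod p) * φ (γ⁻¹ • m)
  map_zero' := by rw [smul_zero, map_zero, mul_zero]
  map_add' a b := by rw [smul_add, map_add, mul_add]

instance : DistribMulAction Γ (DualMod ω M) where
  smul γ φ := of ω M (actHom ω M γ (val ω M φ))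
  one_smul φ := by
    apply val_injective
    refine AddMonoidHom.ext fun m => ?_
    show (ω 1 : ZMod p) * (val ω M φ) ((1 : Γ)⁻¹ • m) = (val ω M φ) m
    rw [map_one, Units.val_one, one_mul, inv_one, one_smul]
  mul_smul γ δ φ := by
    apply val_injective
    refine AddMonoidHom.ext fun m => ?_
    show (ω (γ * δ) : ZMod p) * (val ω M φ) ((γ * δ)⁻¹ • m) =
      (ω γ : ZMod p) * ((ω δ : ZMod p) * (val ω M φ) (δ⁻¹ • γ⁻¹ • m))
    rw [map_mul, Units.val_mul, mul_assoc, mul_inv_rev, mul_smul]
  smul_zero γ := by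
    apply val_injective
    refine AddMonoidHom.ext fun m => ?_
    show (ω γ : ZMod p) * (0 : ZMod p) = 0
    rw [mul_zero]
  smul_add γ φ ψ := by
    apply val_injective
    refine AddMonoidHom.ext fun m => ?_
    show (ω γ : ZMod p) * ((val ω M φ) (γ⁻¹ • m) + (val ω M ψ) (γ⁻¹ • m)) =
      (ω γ : ZMod p) * (val ω M φ) (γ⁻¹ • m) + (ω γ : ZMod p) * (val ω M ψ) (γ⁻¹ • m)
    rw [mul_add]

variable {ω M}

lemma smul_apply (γ : Γ) (φ : DualMod ω M) (m : M.carrier) :
    val ω M (γ • φ) m = (ω γ : ZMod p) * val ω M φ (γ⁻¹ • m) := rfl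

end DualMod

/-- **`D M = Hom(M, μ_p)`** as a `FinCMod`. -/
def dualObj [NeZero p] (ω : Γ →* (ZMod p)ˣ) (M : FinCMod p Γ) : FinCMod p Γ :=
  { carrier := DualMod ω M
    isFinite := Finite.of_injective (fun φ : DualMod ω M => ((DualMod.val ω M φ : M.carrier →+ ZMod p) :
      M.carrier → ZMod p)) (fun _ _ h => DualMod.val_injective (DFunLike.coe_injective h))
    killed := fun φ => by
      apply DualMod.val_injective
      refine AddMonoidHom.ext fun m => ?_
      rw [map_nsmul, map_zero]
      show p • (DualMod.val ω M φ) m = 0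
      rw [nsmul_eq_mul, ZMod.natCast_self, zero_mul] }

/-! ### `μ_p` and `μ_p[Ω]` -/

/-- The carrier of `μ_p[Ω]`. -/
def MuPermMod (_ω : Γ →* (ZMod p)ˣ) {Ω : Type} (_act : Γ →* Equiv.Perm Ω) : Type := Ω → ZMod p

namespace MuPermMod

variable (ω : Γ →* (ZMod p)ˣ) {Ω : Type} (act : Γ →* Equiv.Perm Ω)

instance : AddCommGroup (MuPermMod ω act) := inferInstanceAs (AddCommGroup (Ω → ZMod p))

instance : DistribMulAction Γ (MuPermMod ω act) where
  smul γ f := fun x => (ω γ : ZMod p) * f ((act γ)⁻¹ x)
  one_smul f := by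
    funext x
    show (ω 1 : ZMod p) * f ((act 1)⁻¹ x) = f x
    rw [map_one, map_one, Units.val_one, one_mul, inv_one, Equiv.Perm.one_apply]
  mul_smul γ δ f := by
    funext x
    show (ω (γ * δ) : ZMod p) * f ((act (γ * δ))⁻¹ x) =
      (ω γ : ZMod p) * ((ω δ : ZMod p) * f ((act δ)⁻¹ ((act γ)⁻¹ x)))
    rw [map_mul, map_mul, Units.val_mul, mul_assoc, mul_inv_rev, Equiv.Perm.mul_apply]
  smul_zero γ := by
    funext x
    show (ω γ : ZMod p) * (0 : ZMod p) = 0
    rw [mul_zero]
  smul_add γ f g := by
    funext x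
    show (ω γ : ZMod p) * (f ((act γ)⁻¹ x) + g ((act γ)⁻¹ x)) =
      (ω γ : ZMod p) * f ((act γ)⁻¹ x) + (ω γ : ZMod p) * g ((act γ)⁻¹ x)
    rw [mul_add]

variable {ω act}

lemma smul_apply (γ : Γ) (f : MuPermMod ω act) (x : Ω) :
    (γ • f) x = (ω γ : ZMod p) * f ((act γ)⁻¹ x) := rfl

lemma add_apply (f g : MuPermMod ω act) (x : Ω) : (f + g) x = f x + g x := rfl

lemma zero_apply (x : Ω) : (0 : MuPermMod ω act) x = 0 := rfl

end MuPermMod

/-- **`μ_p[Ω]`** as a `FinCMod`. -/
def muPermObj [NeZero p] (ω : Γ →* (ZMod p)ˣ) {Ω : Type} [Finite Ω] (act : Γ →* Equiv.Perm Ω) :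
    FinCMod p Γ :=
  { carrier := MuPermMod ω act
    isFinite := inferInstanceAs (Finite (Ω → ZMod p))
    killed := fun f => by
      funext x
      show p • f x = 0
      rw [nsmul_eq_mul, ZMod.natCast_self, zero_mul] }

/-- The carrier of `μ_p`. -/
def MuMod (_ω : Γ →* (ZMod p)ˣ) : Type := ZMod p

namespace MuMod

variable (ω : Γ →* (ZMod p)ˣ)

instance : AddCommGroup (MuMod ω) := inferInstanceAs (AddCommGroup (ZMod p))

/-- `ZMod p → μ_p`. -/
def of : ZMod p →+ MuMod ω := AddMonoidHom.id _

/-- `μ_p → ZMod p`. -/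
def val : MuMod ω →+ ZMod p := AddMonoidHom.id _

variable {ω}

@[simp] lemma val_of (x : ZMod p) : val ω (of ω x) = x := rfl

@[simp] lemma of_val (x : MuMod ω) : of ω (val ω x) = x := rfl

lemma val_injective : Function.Injective (val ω) := fun _ _ h => h

variable (ω)

instance : DistribMulAction Γ (MuMod ω) where
  smul γ x := of ω ((ω γ : ZMod p) * val ω x)
  one_smul x := by
    apply val_injective
    show (ω 1 : ZMod p) * val ω x = val ω x
    rw [map_one, Units.val_one, one_mul]
  mul_smul γ δ x := by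
    apply val_injective
    show (ω (γ * δ) : ZMod p) * val ω x = (ω γ : ZMod p) * ((ω δ : ZMod p) * val ω x)
    rw [map_mul, Units.val_mul, mul_assoc]
  smul_zero γ := by
    apply val_injective
    show (ω γ : ZMod p) * val ω (0 : MuMod ω) = 0
    rw [map_zero, mul_zero]
  smul_add γ x y := by
    apply val_injective
    show (ω γ : ZMod p) * val ω (x + y) = (ω γ : ZMod p) * val ω x + (ω γ : ZMod p) * val ω y
    rw [map_add, mul_add]

variable {ω}

lemma val_smul (γ : Γ) (x : MuMod ω) : val ω (γ • x) = (ω γ : ZMod p) * val ω x := rfl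

end MuMod

/-- **`μ_p`** as a `FinCMod`. -/
def muObj [NeZero p] (ω : Γ →* (ZMod p)ˣ) : FinCMod p Γ :=
  { carrier := MuMod ω
    isFinite := inferInstanceAs (Finite (ZMod p))
    killed := fun x => by
      apply MuMod.val_injective
      rw [map_nsmul, map_zero, nsmul_eq_mul, ZMod.natCast_self, zero_mul] }

/-! ### Descent to a quotient group -/

section Descend

variable {H : Type} [Group H] (N : Subgroup H) [N.Normal]

/-- The carrier of the descended module. -/
def DescMod (_N : Subgroup H) (A : Type) : Type := A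

namespace DescMod

variable (A : Type) [AddCommGroup A] [DistribMulAction H A]

instance : AddCommGroup (DescMod N A) := inferInstanceAs (AddCommGroup A)

/-- `A → DescMod N A`. -/
def of : A →+ DescMod N A := AddMonoidHom.id _

/-- `DescMod N A → A`. -/
def val : DescMod N A →+ A := AddMonoidHom.id _

variable {N A}

set_option linter.unusedSectionVars false in
@[simp] lemma val_of (a : A) : val N A (of N A a) = a := rfl

set_option linter.unusedSectionVars false in
@[simp] lemma of_val (a : DescMod N A) : of N A (val N A a) = a := rfl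

set_option linter.unusedSectionVars false in
lemma val_injective : Function.Injective (val N A) := fun _ _ h => h

variable (N A)

/-- The action of `H ⧸ N` on `A`, as a homomorphism. -/
def actHomQ (htriv : ∀ n ∈ N, ∀ a : A, n • a = a) : H ⧸ N →* AddMonoid.End A :=
  QuotientGroup.lift N (DistribMulAction.toAddMonoidEnd H A) (fun n hn => by
    rw [MonoidHom.mem_ker]
    refine AddMonoidHom.ext fun a => ?_
    exact htriv n hn a)

lemma actHomQ_mk (htriv : ∀ n ∈ N, ∀ a : A, n • a = a) (h : H) (a : A) :
    actHomQ N A htriv (h : H ⧸ N) a = h • a := rfl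

/-- The action of `H ⧸ N` on a module on which `N` acts trivially. -/
@[instance_reducible]
def action (htriv : ∀ n ∈ N, ∀ a : A, n • a = a) : DistribMulAction (H ⧸ N) (DescMod N A) where
  smul q a := of N A (actHomQ N A htriv q (val N A a))
  one_smul a := by
    show of N A (actHomQ N A htriv 1 (val N A a)) = a
    rw [map_one]
    rfl
  mul_smul q q' a := by
    show of N A (actHomQ N A htriv (q * q') (val N A a)) =
      of N A (actHomQ N A htriv q (val N A (of N A (actHomQ N A htriv q' (val N A a)))))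
    rw [map_mul]
    rfl
  smul_zero q := by
    show of N A (actHomQ N A htriv q (val N A 0)) = 0
    rw [map_zero, map_zero, map_zero]
  smul_add q a b := by
    show of N A (actHomQ N A htriv q (val N A (a + b))) =
      of N A (actHomQ N A htriv q (val N A a)) + of N A (actHomQ N A htriv q (val N A b))
    rw [map_add, map_add, map_add]

lemma action_mk (htriv : ∀ n ∈ N, ∀ a : A, n • a = a) (h : H) (a : DescMod N A) :
    letI := action N A htriv
    ((h : H ⧸ N) • a : DescMod N A) = of N A (h • val N A a) := rfl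

end DescMod

/-- **Descent**: a finite `H`-module killed by `p` on which `N ⊴ H` acts trivially, as a module
over `H ⧸ N`. -/
def FinCMod.descend (A : FinCMod p H) (htriv : ∀ n ∈ N, ∀ a : A.carrier, n • a = a) :
    FinCMod p (H ⧸ N) :=
  letI := DescMod.action N A.carrier htriv
  { carrier := DescMod N A.carrier
    isFinite := inferInstanceAs (Finite A.carrier)
    killed := fun x => by
      apply DescMod.val_injective
      rw [map_nsmul, map_zero]
      exact A.killed _ }

lemma FinCMod.descend_smul (A : FinCMod p H) (htriv : ∀ n ∈ N, ∀ a : A.carrier, n • a = a)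
    (h : H) (a : (A.descend N htriv).carrier) :
    ((h : H ⧸ N) • a) = DescMod.of N A.carrier (h • DescMod.val N A.carrier a) := rfl

end Descend

end Fermat.Agent.S56.EC
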