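/-
S56, wall W2-EC, step (D), `K₀` toolkit (helper54): the twisted dual `D M = Hom(M, μ_p)`.

* `pairC_dualObj_swap_pf` (T3) : `⟨X, D M⟩ = ⟨M, D X⟩` (tensor–hom adjunction);
* `d_muObj_eq_pf`, `d_muPermObj_eq_pf` (T4) : `μ_p ≅ D(𝔽_p)`, `μ_p[Ω] ≅ D(𝔽_p[Ω])`.
-/
import Fermat.Agent.S56.W2.EC.Cyclic.K0.Defs

set_option autoImplicit false
set_option linter.unusedSectionVars false
set_option linter.style.haveILetI false

noncomputable section

namespace Fermat.Agent.S56.EC

variable {p : ℕ} [Fact p.Prime] {Γ : Type} [Group Γ]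

/-! ### (T3) adjunction -/

section Swap

variable (ω : Γ →* (ZMod p)ˣ) (X M : FinCMod p Γ)

/-- The flip `Hom(X, D M) → Hom(M, D X)`. -/
def dualFlip (f : X.carrier →+ DualMod ω M) : M.carrier →+ DualMod ω X :=
  (DualMod.of ω X : (X.carrier →+ ZMod p) →+ DualMod ω X).comp
    (((DualMod.val ω M : DualMod ω M →+ (M.carrier →+ ZMod p)).comp f).flip)

lemma dualFlip_apply (f : X.carrier →+ DualMod ω M) (m : M.carrier) (x : X.carrier) :
    DualMod.val ω X (dualFlip ω X M f m) x = DualMod.val ω M (f x) m := rfl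

lemma dualFlip_mem (f : X.carrier →+ DualMod ω M)
    (hf : ∀ (γ : Γ) (x : X.carrier), f (γ • x) = γ • f x) (γ : Γ) (m : M.carrier) :
    dualFlip ω X M f (γ • m) = γ • dualFlip ω X M f m := by
  apply DualMod.val_injective
  refine AddMonoidHom.ext fun x => ?_
  rw [dualFlip_apply, DualMod.smul_apply, dualFlip_apply]
  have h1 : f x = γ • f (γ⁻¹ • x) := by
    rw [← hf, smul_inv_smul]
  rw [h1, DualMod.smul_apply, inv_smul_smul]

end Swap

/-- **(T3)** adjunction. -/
theorem pairC_dualObj_swap_pf (ω : Γ →* (ZMod p)ˣ) (X M : FinCMod p Γ) :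
    pairC X (dualObj ω M) = pairC M (dualObj ω X) := by
  unfold pairC
  congr 2
  refine Nat.card_congr
    { toFun := fun f => ⟨dualFlip ω X M f.1, fun γ m => dualFlip_mem ω X M f.1 f.2 γ m⟩
      invFun := fun g => ⟨dualFlip ω M X g.1, fun γ x => dualFlip_mem ω M X g.1 g.2 γ x⟩
      left_inv := fun f => ?_
      right_inv := fun g => ?_ }
  · apply Subtype.ext
    refine AddMonoidHom.ext fun x => ?_
    rfl
  · apply Subtype.ext
    refine AddMonoidHom.ext fun m => ?_
    rfl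

/-! ### (T4) `μ_p ≅ D(𝔽_p)` -/

lemma zmod_addHom_apply (φ : ZMod p →+ ZMod p) (m : ZMod p) : φ m = m * φ 1 := by
  have h1 : m = m.val • (1 : ZMod p) := by
    rw [nsmul_eq_mul, mul_one, ZMod.natCast_zmod_val]
  conv_lhs => rw [h1]
  rw [map_nsmul, nsmul_eq_mul, ZMod.natCast_zmod_val]

/-- `x ↦ (m ↦ x * m)`. -/
def zmodMul : ZMod p →+ (ZMod p →+ ZMod p) := AddMonoidHom.mul

lemma zmodMul_apply (x m : ZMod p) : zmodMul (p := p) x m = x * m := rfl

lemma zmodMul_injective : Function.Injective (zmodMul (p := p)) := by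
  intro x y hxy
  have := congrArg (fun φ : ZMod p →+ ZMod p => φ 1) hxy
  simpa [zmodMul_apply] using this

lemma zmodMul_surjective : Function.Surjective (zmodMul (p := p)) := by
  intro φ
  refine ⟨φ 1, AddMonoidHom.ext fun m => ?_⟩
  rw [zmodMul_apply, mul_comm, ← zmod_addHom_apply]

/-- **(T4)** `μ_p ≅ D(𝔽_p)`. -/
theorem d_muObj_eq_pf (ω : Γ →* (ZMod p)ˣ) {d : FinCMod p Γ → ℤ} (hd : IsAdditive d) :
    d (muObj ω) = d (dualObj ω (trivObj p Γ)) := by
  let Φ : MuMod ω →+ DualMod ω (trivObj p Γ) := zmodMul (p := p)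
  have h1 : ∀ (γ : Γ) (x : MuMod ω), Φ (γ • x) = γ • Φ x := by
    intro γ x
    refine AddMonoidHom.ext fun m => ?_
    show (ω γ : ZMod p) * MuMod.val ω x * TrivMod.val (C := Γ) (R := ZMod p) m =
      (ω γ : ZMod p) * (MuMod.val ω x * TrivMod.val (C := Γ) (R := ZMod p) m)
    rw [mul_assoc]
  have h2 : Function.Injective Φ := zmodMul_injective
  have h3 : Function.Surjective Φ := zmodMul_surjective
  exact hd.eq_of_bijective (muObj ω) (dualObj ω (trivObj p Γ)) Φ h1 ⟨h2, h3⟩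

/-! ### (T4) `μ_p[Ω] ≅ D(𝔽_p[Ω])` -/

section PairSum

variable (Ω : Type) [Fintype Ω]

/-- `g ↦ (f ↦ ∑ x, g x * f x)`. -/
def pairSum : (Ω → ZMod p) →+ ((Ω → ZMod p) →+ ZMod p) where
  toFun g :=
    { toFun := fun f => ∑ x : Ω, g x * f x
      map_zero' := by simp
      map_add' := fun f f' => by simp [mul_add, Finset.sum_add_distrib] }
  map_zero' := by
    refine AddMonoidHom.ext fun f => ?_
    simp
  map_add' g g' := by
    refine AddMonoidHom.ext fun f => ?_
    simp [add_mul, Finset.sum_add_distrib]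

variable {Ω}

lemma pairSum_apply (g f : Ω → ZMod p) : pairSum (p := p) Ω g f = ∑ x : Ω, g x * f x := rfl

lemma pairSum_single [DecidableEq Ω] (g : Ω → ZMod p) (x : Ω) :
    pairSum (p := p) Ω g (Pi.single x 1) = g x := by
  rw [pairSum_apply]
  have : ∀ y : Ω, g y * (Pi.single x (1 : ZMod p) : Ω → ZMod p) y = if y = x then g x else 0 := by
    intro y
    by_cases hyx : y = x
    · subst hyx
      rw [Pi.single_eq_same, mul_one, if_pos rfl]
    · rw [Pi.single_eq_of_ne hyx, mul_zero, if_neg hyx]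
  rw [Finset.sum_congr rfl (fun y _ => this y), Finset.sum_ite_eq' Finset.univ x]
  simp

lemma pairSum_injective : Function.Injective (pairSum (p := p) Ω) := by
  classical
  intro g g' hgg
  funext x
  rw [← pairSum_single g x, ← pairSum_single g' x, hgg]

lemma pairSum_surjective : Function.Surjective (pairSum (p := p) Ω) := by
  classical
  intro φ
  refine ⟨fun x => φ (Pi.single x 1), AddMonoidHom.ext fun f => ?_⟩
  rw [pairSum_apply]
  have hf : f = ∑ x : Ω, ((f x).val : ℕ) • (Pi.single x (1 : ZMod p) : Ω → ZMod p) := by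
    funext y
    rw [Finset.sum_apply]
    have h5 : ∀ x : Ω, (((f x).val : ℕ) • (Pi.single x (1 : ZMod p) : Ω → ZMod p)) y =
        if x = y then f y else 0 := by
      intro x
      show ((f x).val : ℕ) • (Pi.single x (1 : ZMod p) : Ω → ZMod p) y = _
      by_cases hxy : x = y
      · subst hxy
        rw [Pi.single_eq_same, if_pos rfl, nsmul_eq_mul, mul_one, ZMod.natCast_zmod_val]
      · rw [Pi.single_eq_of_ne (Ne.symm hxy), if_neg hxy, smul_zero]
    rw [Finset.sum_congr rfl (fun x _ => h5 x), Finset.sum_ite_eq' Finset.univ y]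
    simp
  conv_rhs => rw [hf]
  rw [map_sum]
  refine Finset.sum_congr rfl fun x _ => ?_
  rw [map_nsmul, nsmul_eq_mul, ZMod.natCast_zmod_val, mul_comm]

lemma pairSum_equivariant (c : ZMod p) (σ τ : Equiv.Perm Ω) (hτ : τ = σ⁻¹) (g f : Ω → ZMod p) :
    pairSum (p := p) Ω (fun x => c * g (σ⁻¹ x)) f =
      c * pairSum (p := p) Ω g (fun x => f (τ⁻¹ x)) := by
  subst hτ
  rw [pairSum_apply, pairSum_apply, Finset.mul_sum]
  refine Fintype.sum_equiv σ⁻¹ _ _ fun x => ?_
  rw [inv_inv]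
  have h : σ (σ⁻¹ x) = x := by
    rw [← Equiv.Perm.mul_apply, mul_inv_cancel, Equiv.Perm.one_apply]
  rw [h, mul_assoc]

end PairSum

/-- **(T4)** `μ_p[Ω] ≅ D(𝔽_p[Ω])`. -/
theorem d_muPermObj_eq_pf (ω : Γ →* (ZMod p)ˣ) {Ω : Type} [Finite Ω] (act : Γ →* Equiv.Perm Ω)
    {d : FinCMod p Γ → ℤ} (hd : IsAdditive d) :
    d (muPermObj ω act) = d (dualObj ω (permObj p act)) := by
  letI := Fintype.ofFinite Ω
  let Φ : MuPermMod ω act →+ DualMod ω (permObj p act) := pairSum (p := p) Ω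
  have h1 : ∀ (γ : Γ) (g : MuPermMod ω act), Φ (γ • g) = γ • Φ g := by
    intro γ g
    refine AddMonoidHom.ext fun f => ?_
    exact pairSum_equivariant (p := p) (ω γ : ZMod p) (act γ) (act γ⁻¹) (map_inv act γ) g f
  have h2 : Function.Injective Φ := pairSum_injective
  have h3 : Function.Surjective Φ := pairSum_surjective
  exact hd.eq_of_bijective (muPermObj ω act) (dualObj ω (permObj p act)) Φ h1 ⟨h2, h3⟩

end Fermat.Agent.S56.EC
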