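import Fermat.Agent.S56.W2.EC.Cyclic.K0.Maschke

/-!
# S56 / W2-EC / (D) / `K₀` toolkit: the Maschke package, part 2 (helper14): symmetry (T2)

`Γ` finite of order prime to `p`.  `⟨A, B⟩ = ⟨B, A⟩` for finite `𝔽_p[Γ]`-modules.

* `sym_exists_split` : a proper nonzero stable subgroup `N ≤ A` gives smaller modules `A₁`, `A₂`
  with `d A = d A₁ + d A₂` for every additive `d`;
* `sym_bijective_of_simple` : Schur's lemma;
* `sym_card_eq_of_bijective` : an equivariant bijection `A → B` gives `#Hom_Γ(A,B) = #Hom_Γ(B,A)`;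
* `pairC_symm_pf` (T2).
-/

set_option autoImplicit false
set_option linter.style.haveILetI false
set_option linter.unusedSectionVars false

noncomputable section

namespace Fermat.Agent.S56.EC

variable {p : ℕ} [Fact p.Prime] {Γ : Type} [Group Γ]

/-! ### Splitting along a stable subgroup -/

/-- `N` is stable under `Γ`. -/
def SymStable (A : FinCMod p Γ) (N : AddSubgroup A.carrier) : Prop :=
  ∀ (c : Γ) (a : A.carrier), a ∈ N → c • a ∈ N

/-- `A` has no proper nonzero stable subgroup. -/
def SymSimple (A : FinCMod p Γ) : Prop :=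
  ∀ N : AddSubgroup A.carrier, SymStable A N → N = ⊥ ∨ N = ⊤

/-- The subquotient `top / bot` of `A`. -/
def symQ (A : FinCMod p Γ) (bot top : AddSubgroup A.carrier) (hle : bot ≤ top)
    (hb : SymStable A bot) (ht : SymStable A top) : SubQ p Γ A.carrier where
  bot := bot
  top := top
  le := hle
  stable_bot := hb
  stable_top := ht
  killed := fun x _ => by
    rw [A.killed x]
    exact bot.zero_mem

lemma symStable_bot (A : FinCMod p Γ) : SymStable A ⊥ := fun c a ha => by
  rw [AddSubgroup.mem_bot] at ha ⊢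
  rw [ha, smul_zero]

lemma symStable_top (A : FinCMod p Γ) : SymStable A ⊤ := fun _ _ _ => AddSubgroup.mem_top _

lemma sym_p_ne_zero : p ≠ 0 := (Fact.out : p.Prime).ne_zero

/-- `A ≅ top / bot` when `bot = ⊥`, `top = ⊤`. -/
lemma sym_d_whole (A : FinCMod p Γ) (Q : SubQ p Γ A.carrier) (hb : Q.bot = ⊥) (ht : Q.top = ⊤)
    {d : FinCMod p Γ → ℤ} (hd : IsAdditive d) :
    d A = d (Q.obj sym_p_ne_zero) := by
  have hmem : ∀ a : A.carrier, a ∈ Q.top := fun a => ht ▸ AddSubgroup.mem_top a
  let φ : A.carrier →+ (Q.obj sym_p_ne_zero).carrier :=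
    Q.cls.comp
      { toFun := fun a => (⟨a, hmem a⟩ : ↥Q.top)
        map_zero' := rfl
        map_add' := fun _ _ => rfl }
  have hφ : ∀ a : A.carrier, φ a = Q.cls ⟨a, hmem a⟩ := fun a => rfl
  refine hd.eq_of_bijective A (Q.obj sym_p_ne_zero) φ (fun c a => ?_) ⟨?_, ?_⟩
  · rw [hφ, hφ]
    rfl
  · rw [injective_iff_map_eq_zero]
    intro a ha
    have h1 : (a : A.carrier) ∈ Q.bot := (SubQ.cls_eq_zero_iff Q ⟨a, hmem a⟩).1 ha
    rw [hb] at h1
    exact (AddSubgroup.mem_bot).1 h1
  · intro y
    obtain ⟨x, rfl⟩ := Q.cls_surjective y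
    exact ⟨x.1, rfl⟩

/-- The sub-object has smaller order. -/
lemma sym_card_sub_lt (A : FinCMod p Γ) (Q : SubQ p Γ A.carrier) (h1 : Q.top ≠ ⊤) :
    Nat.card (Q.obj sym_p_ne_zero).carrier < Nat.card A.carrier := by
  have h2 : Nat.card (Q.obj sym_p_ne_zero).carrier ≤ Nat.card ↥Q.top :=
    Nat.card_le_card_of_surjective Q.cls Q.cls_surjective
  have h3 : Nat.card ↥Q.top < Nat.card A.carrier := by
    refine lt_of_le_of_ne (Nat.card_le_card_of_injective _ Subtype.coe_injective) fun h => h1 ?_
    exact (AddSubgroup.card_eq_iff_eq_top Q.top).1 h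
  exact lt_of_le_of_lt h2 h3

/-- The quotient object has smaller order. -/
lemma sym_card_quot_lt (A : FinCMod p Γ) (Q : SubQ p Γ A.carrier) (ht : Q.top = ⊤)
    (h0 : Q.bot ≠ ⊥) :
    Nat.card (Q.obj sym_p_ne_zero).carrier < Nat.card A.carrier := by
  classical
  have hmem : ∀ a : A.carrier, a ∈ Q.top := fun a => ht ▸ AddSubgroup.mem_top a
  let φ : A.carrier → (Q.obj sym_p_ne_zero).carrier := fun a => Q.cls ⟨a, hmem a⟩
  have hsurj : Function.Surjective φ := by
    intro y
    obtain ⟨x, rfl⟩ := Q.cls_surjective y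
    exact ⟨x.1, rfl⟩
  have hninj : ¬ Function.Injective φ := by
    intro hinj
    obtain ⟨n, hn, hn0⟩ : ∃ n ∈ Q.bot, n ≠ 0 := by
      by_contra hcon
      apply h0
      rw [AddSubgroup.eq_bot_iff_forall]
      intro x hx
      by_contra hx0
      exact hcon ⟨x, hx, hx0⟩
    have h1 : φ n = φ 0 := by
      refine (SubQ.cls_eq_cls_iff Q ⟨n, hmem n⟩ ⟨0, hmem 0⟩).2 ?_
      show n - 0 ∈ Q.bot
      rw [sub_zero]
      exact hn
    exact hn0 (hinj h1)
  haveI : Fintype A.carrier := Fintype.ofFinite _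
  haveI : Fintype (Q.obj sym_p_ne_zero).carrier := Fintype.ofFinite _
  rw [Nat.card_eq_fintype_card, Nat.card_eq_fintype_card]
  exact Fintype.card_lt_of_surjective_not_injective φ hsurj hninj

/-- **Splitting**: a proper nonzero stable subgroup splits `A` into two smaller modules. -/
theorem sym_exists_split (A : FinCMod p Γ) (N : AddSubgroup A.carrier) (hN : SymStable A N)
    (h0 : N ≠ ⊥) (h1 : N ≠ ⊤) :
    ∃ A₁ A₂ : FinCMod p Γ, Nat.card A₁.carrier < Nat.card A.carrier ∧
      Nat.card A₂.carrier < Nat.card A.carrier ∧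
      ∀ d : FinCMod p Γ → ℤ, IsAdditive d → d A = d A₁ + d A₂ := by
  refine ⟨(symQ A ⊥ N bot_le (symStable_bot A) hN).obj sym_p_ne_zero,
    (symQ A N ⊤ le_top hN (symStable_top A)).obj sym_p_ne_zero,
    sym_card_sub_lt A _ h1, sym_card_quot_lt A _ rfl h0, fun d hd => ?_⟩
  rw [sym_d_whole A (symQ A ⊥ ⊤ bot_le (symStable_bot A) (symStable_top A)) rfl rfl hd]
  exact hd.subQ_chain sym_p_ne_zero _ _ _ rfl rfl rfl

/-! ### Schur's lemma -/

/-- **Schur**: a nonzero equivariant map between simple modules is bijective. -/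
theorem sym_bijective_of_simple {A B : FinCMod p Γ} (hA : SymSimple A) (hB : SymSimple B)
    (f : A.carrier →+ B.carrier) (hf : f ∈ homC A B) (hf0 : f ≠ 0) : Function.Bijective f := by
  have hker : SymStable A f.ker := fun c a ha => by
    rw [AddMonoidHom.mem_ker] at ha ⊢
    rw [hf c a, ha, smul_zero]
  have hrange : SymStable B f.range := by
    rintro c _ ⟨a, rfl⟩
    exact ⟨c • a, hf c a⟩
  constructor
  · rcases hA f.ker hker with h | h
    · exact (AddMonoidHom.ker_eq_bot_iff f).1 h
    · exfalso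
      apply hf0
      refine AddMonoidHom.ext fun a => ?_
      have : a ∈ f.ker := h ▸ AddSubgroup.mem_top a
      exact this
  · rcases hB f.range hrange with h | h
    · exfalso
      apply hf0
      refine AddMonoidHom.ext fun a => ?_
      have : f a ∈ f.range := ⟨a, rfl⟩
      rw [h, AddSubgroup.mem_bot] at this
      exact this
    · exact AddMonoidHom.range_eq_top.1 h

/-- An equivariant bijection `A → B` gives `#Hom_Γ(A, B) = #Hom_Γ(B, A)`. -/
theorem sym_card_eq_of_bijective {A B : FinCMod p Γ} (f : A.carrier →+ B.carrier)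
    (hf : f ∈ homC A B) (hbij : Function.Bijective f) :
    Nat.card ↥(homC A B) = Nat.card ↥(homC B A) := by
  let e : A.carrier ≃+ B.carrier := AddEquiv.ofBijective f hbij
  have he : ∀ a, e a = f a := fun a => rfl
  have hinv : e.symm.toAddMonoidHom ∈ homC B A := by
    intro c b
    apply e.injective
    show e (e.symm (c • b)) = e (c • e.symm b)
    rw [e.apply_symm_apply, he, hf c, ← he, e.apply_symm_apply]
  -- `Hom(A, B) → Hom(A, A) → Hom(B, A)`
  have h1 : Function.Bijective (msk_post A e.symm.toAddMonoidHom hinv) := by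
    rw [Function.bijective_iff_has_inverse]
    refine ⟨msk_post A f hf, fun g => ?_, fun g => ?_⟩
    · apply Subtype.ext
      refine AddMonoidHom.ext fun a => ?_
      show f (e.symm (g.1 a)) = g.1 a
      rw [← he, e.apply_symm_apply]
    · apply Subtype.ext
      refine AddMonoidHom.ext fun a => ?_
      show e.symm (f (g.1 a)) = g.1 a
      rw [← he, e.symm_apply_apply]
  have h2 : Function.Bijective (msk_pre A e.symm.toAddMonoidHom hinv) := by
    rw [Function.bijective_iff_has_inverse]
    refine ⟨msk_pre A f hf, fun g => ?_, fun g => ?_⟩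
    · apply Subtype.ext
      refine AddMonoidHom.ext fun a => ?_
      show g.1 (e.symm (f a)) = g.1 a
      rw [← he, e.symm_apply_apply]
    · apply Subtype.ext
      refine AddMonoidHom.ext fun b => ?_
      show g.1 (f (e.symm b)) = g.1 b
      rw [← he, e.apply_symm_apply]
  rw [Nat.card_eq_of_bijective _ h1, Nat.card_eq_of_bijective _ h2]

/-- If there is no nonzero equivariant map, `Hom_Γ` has one element. -/
lemma sym_card_eq_one {A B : FinCMod p Γ}
    (h : ∀ f : A.carrier →+ B.carrier, f ∈ homC A B → f = 0) : Nat.card ↥(homC A B) = 1 := by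
  haveI : Subsingleton ↥(homC A B) :=
    ⟨fun f g => Subtype.ext ((h f.1 f.2).trans (h g.1 g.2).symm)⟩
  exact Nat.card_of_subsingleton 0

lemma sym_pairC_eq_of_card {A B A' B' : FinCMod p Γ}
    (h : Nat.card ↥(homC A B) = Nat.card ↥(homC A' B')) : pairC A B = pairC A' B' := by
  unfold pairC
  rw [h]

lemma sym_exists_of_not_simple {A : FinCMod p Γ} (hA : ¬ SymSimple A) :
    ∃ N : AddSubgroup A.carrier, SymStable A N ∧ N ≠ ⊥ ∧ N ≠ ⊤ := by
  by_contra hcon
  apply hA
  intro N hN
  by_contra h
  exact hcon ⟨N, hN, fun h0 => h (Or.inl h0), fun h1 => h (Or.inr h1)⟩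

/-! ### T2 -/

/-- **(T2)** symmetry of the multiplicity pairing. -/
theorem pairC_symm_pf [Finite Γ] (hΓ : (Nat.card Γ).Coprime p) (A B : FinCMod p Γ) :
    pairC A B = pairC B A := by
  classical
  induction' hn : Nat.card A.carrier + Nat.card B.carrier using Nat.strong_induction_on
    with n ih generalizing A B
  by_cases hA : SymSimple A
  · by_cases hB : SymSimple B
    · -- both simple
      by_cases h1 : ∃ f : A.carrier →+ B.carrier, f ∈ homC A B ∧ f ≠ 0
      · obtain ⟨f, hf, hf0⟩ := h1
        exact sym_pairC_eq_of_card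
          (sym_card_eq_of_bijective f hf (sym_bijective_of_simple hA hB f hf hf0))
      · by_cases h2 : ∃ g : B.carrier →+ A.carrier, g ∈ homC B A ∧ g ≠ 0
        · obtain ⟨g, hg, hg0⟩ := h2
          exact (sym_pairC_eq_of_card
            (sym_card_eq_of_bijective g hg (sym_bijective_of_simple hB hA g hg hg0))).symm
        · refine sym_pairC_eq_of_card ?_
          rw [sym_card_eq_one (fun f hf => by_contra fun h => h1 ⟨f, hf, h⟩),
            sym_card_eq_one (fun g hg => by_contra fun h => h2 ⟨g, hg, h⟩)]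
    · -- split `B`
      obtain ⟨N, hN, h0, h1⟩ := sym_exists_of_not_simple hB
      obtain ⟨B₁, B₂, hc1, hc2, hsplit⟩ := sym_exists_split B N hN h0 h1
      have e1 : pairC A B = pairC A B₁ + pairC A B₂ :=
        hsplit _ (pairC_right_isAdditive_pf hΓ A)
      have e2 : pairC B A = pairC B₁ A + pairC B₂ A :=
        hsplit _ (pairC_left_isAdditive_pf hΓ A)
      have i1 := ih (Nat.card A.carrier + Nat.card B₁.carrier) (by omega) A B₁ rfl
      have i2 := ih (Nat.card A.carrier + Nat.card B₂.carrier) (by omega) A B₂ rfl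
      rw [e1, e2, i1, i2]
  · -- split `A`
    obtain ⟨N, hN, h0, h1⟩ := sym_exists_of_not_simple hA
    obtain ⟨A₁, A₂, hc1, hc2, hsplit⟩ := sym_exists_split A N hN h0 h1
    have e1 : pairC A B = pairC A₁ B + pairC A₂ B :=
      hsplit _ (pairC_left_isAdditive_pf hΓ B)
    have e2 : pairC B A = pairC B A₁ + pairC B A₂ :=
      hsplit _ (pairC_right_isAdditive_pf hΓ B)
    have i1 := ih (Nat.card A₁.carrier + Nat.card B.carrier) (by omega) A₁ B rfl
    have i2 := ih (Nat.card A₂.carrier + Nat.card B.carrier) (by omega) A₂ B rfl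
    rw [e1, e2, i1, i2]

end Fermat.Agent.S56.EC
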