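/-
S56, wall W2-EC, step (D), `K₀` side (architect: helper54): the TOOLKIT.  Statements FIXED.
Pure algebra (Mathlib + `EC/FinCMod.lean` + `K0/Defs.lean`).

* (T1) `pairC_right_isAdditive` : `M ↦ ⟨Y, M⟩` is additive (`p ∤ |Γ|`, Maschke by averaging);
* (T1') `pairC_left_isAdditive` : `M ↦ ⟨M, X⟩` is additive;
* (T2) `pairC_symm` : `⟨A, B⟩ = ⟨B, A⟩`;
* (T3) `pairC_dualObj_swap` : `⟨X, D M⟩ = ⟨M, D X⟩` (adjunction; no hypothesis on `Γ`);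
* (T4) `d_muObj_eq`, `d_muPermObj_eq` : `μ_p ≅ D(𝔽_p)`, `μ_p[Ω] ≅ D(𝔽_p[Ω])`.
-/
import Fermat.Agent.S56.W2.EC.Cyclic.K0.Symm
import Fermat.Agent.S56.W2.EC.Cyclic.K0.Dual

set_option autoImplicit false

noncomputable section

namespace Fermat.Agent.S56.EC

variable {p : ℕ} [Fact p.Prime] {Γ : Type} [Group Γ]

/-- **(T1)** `M ↦ ⟨Y, M⟩` is additive. -/
theorem pairC_right_isAdditive [Finite Γ] (hΓ : (Nat.card Γ).Coprime p) (Y : FinCMod p Γ) :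
    IsAdditive (fun M : FinCMod p Γ => pairC Y M) :=
  pairC_right_isAdditive_pf hΓ Y

/-- **(T1')** `M ↦ ⟨M, X⟩` is additive. -/
theorem pairC_left_isAdditive [Finite Γ] (hΓ : (Nat.card Γ).Coprime p) (X : FinCMod p Γ) :
    IsAdditive (fun M : FinCMod p Γ => pairC M X) :=
  pairC_left_isAdditive_pf hΓ X

/-- **(T2)** symmetry of the multiplicity pairing (`𝔽_p[Γ]` is semisimple). -/
theorem pairC_symm [Finite Γ] (hΓ : (Nat.card Γ).Coprime p) (A B : FinCMod p Γ) :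
    pairC A B = pairC B A :=
  pairC_symm_pf hΓ A B

/-- **(T3)** adjunction: `Hom_Γ(X, Hom(M, μ)) = Hom_Γ(M, Hom(X, μ))`. -/
theorem pairC_dualObj_swap (ω : Γ →* (ZMod p)ˣ) (X M : FinCMod p Γ) :
    pairC X (dualObj ω M) = pairC M (dualObj ω X) :=
  pairC_dualObj_swap_pf ω X M

/-- **(T4)** `μ_p ≅ D(𝔽_p)`. -/
theorem d_muObj_eq (ω : Γ →* (ZMod p)ˣ) {d : FinCMod p Γ → ℤ} (hd : IsAdditive d) :
    d (muObj ω) = d (dualObj ω (trivObj p Γ)) :=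
  d_muObj_eq_pf ω hd

/-- **(T4)** `μ_p[Ω] ≅ D(𝔽_p[Ω])`. -/
theorem d_muPermObj_eq (ω : Γ →* (ZMod p)ˣ) {Ω : Type} [Finite Ω] (act : Γ →* Equiv.Perm Ω)
    {d : FinCMod p Γ → ℤ} (hd : IsAdditive d) :
    d (muPermObj ω act) = d (dualObj ω (permObj p act)) :=
  d_muPermObj_eq_pf ω act hd

end Fermat.Agent.S56.EC
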