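/-
S56, wall W2-EC, step (D), `K₀` side (architect: helper54): the abstract cyclic case.

`CycK0 ω` : the `K₀` input (one field per number-theory leaf):
  (N1) Kummer   `d(Hμ) = d(E_L/p) + d(A[p])`,        `Hμ = Hom_sm(W, μ_p)`;
  (N5) `A` is a finite `Γ`-module;
  (N3) torsion  `d(Z) = d(μ_p[Ωf]) - d(μ_p) + d(Sha)`, `Z = (ker d_KC)^W`;
  (N4) recip    `d(Sha) = d(D(A/p))`;
  (N6) units    `d(E_L/p) - d(μ_p) + d(𝔽_p) = d(𝔽_p[Ωf]) + d(𝔽_p[Ω∞])`.
`CycK0.formula` : for every finite `𝔽_p[Γ]`-module `X`, `Y = D X`,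
  `⟨Y, Hμ⟩ - ⟨Y, μ_p⟩ - ⟨X, Z⟩ - ⟨μ_p[Ω∞], X⟩ = 0`
(`= h¹(U, X) - h⁰(U, X) - dim Hom_U(X, K_C) - dim (coInd_U X)^{c = -1}` by the glue (G1)–(G4)).
-/
import Fermat.Agent.S56.W2.EC.Cyclic.K0.Toolkit

set_option autoImplicit false

noncomputable section

namespace Fermat.Agent.S56.EC

variable {p : ℕ} [Fact p.Prime] {Γ : Type} [Group Γ]

/-- The `K₀` input of the cyclic case. -/
structure CycK0 (ω : Γ →* (ZMod p)ˣ) where
  /-- `Hom_sm(W, μ_p)` -/
  Hμ : FinCMod p Γ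
  /-- `E_L / p` -/
  Emod : FinCMod p Γ
  /-- `(ker d_KC)^W` -/
  Z : FinCMod p Γ
  /-- the locally trivial part of `Hμ` -/
  Sha : FinCMod p Γ
  /-- `A = T_W / (E + Fˣ) ≅ C^W / pr(J^W) ≅ H¹(W, E)` -/
  A : Type
  [instA : AddCommGroup A]
  [actA : DistribMulAction Γ A]
  [finA : Finite A]
  /-- the places of `L` over `S` -/
  Ωf : Type
  /-- the archimedean places of `L` -/
  Ωi : Type
  [finf : Finite Ωf]
  [fini : Finite Ωi]
  actf : Γ →* Equiv.Perm Ωf
  acti : Γ →* Equiv.Perm Ωi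
  kummer : ∀ d : FinCMod p Γ → ℤ, IsAdditive d →
    d Hμ = d Emod + d (torObj (C := Γ) A (NeZero.ne p))
  tors : ∀ d : FinCMod p Γ → ℤ, IsAdditive d →
    d Z = d (muPermObj ω actf) - d (muObj ω) + d Sha
  recip : ∀ d : FinCMod p Γ → ℤ, IsAdditive d →
    d Sha = d (dualObj ω (modObj (C := Γ) A (NeZero.ne p)))
  units : ∀ d : FinCMod p Γ → ℤ, IsAdditive d →
    d Emod - d (muObj ω) + d (trivObj p Γ) = d (permObj p actf) + d (permObj p acti)

attribute [instance] CycK0.instA CycK0.actA CycK0.finA CycK0.finf CycK0.fini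

/-- **The cyclic case, in `K₀`.** -/
theorem CycK0.formula {ω : Γ →* (ZMod p)ˣ} (I : CycK0 ω) [Finite Γ]
    (hΓ : (Nat.card Γ).Coprime p) (X : FinCMod p Γ) :
    pairC (dualObj ω X) I.Hμ - pairC (dualObj ω X) (muObj ω) - pairC X I.Z
      - pairC (muPermObj ω I.acti) X = 0 := by
  have hp : p ≠ 0 := NeZero.ne p
  have hd1 := pairC_right_isAdditive hΓ (dualObj ω X)
  have hd2 := pairC_right_isAdditive hΓ X
  -- conversion `d₂ (D M) = d₁ M`
  have conv : ∀ M : FinCMod p Γ, pairC X (dualObj ω M) = pairC (dualObj ω X) M := fun M => by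
    rw [pairC_dualObj_swap ω X M, pairC_symm hΓ]
  have a := I.kummer _ hd1
  have b := I.units _ hd1
  have c := I.tors _ hd2
  have d' := I.recip _ hd2
  have e1 : pairC X (muPermObj ω I.actf) = pairC (dualObj ω X) (permObj p I.actf) := by
    rw [← conv]
    exact d_muPermObj_eq ω I.actf hd2
  have e2 : pairC X (muObj ω) = pairC (dualObj ω X) (trivObj p Γ) := by
    rw [← conv]
    exact d_muObj_eq ω hd2
  have e3 : pairC (muPermObj ω I.acti) X = pairC (dualObj ω X) (permObj p I.acti) := by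
    rw [pairC_symm hΓ, ← conv]
    exact d_muPermObj_eq ω I.acti hd2
  have e4 : pairC X (dualObj ω (modObj (C := Γ) I.A hp)) =
      pairC (dualObj ω X) (modObj (C := Γ) I.A hp) := conv _
  have h := hd1.d_modObj_eq_d_torObj (M := I.A) hp
  beta_reduce at a b c d' h
  rw [e1, e2] at c
  rw [e4] at d'
  rw [e3]
  linarith

end Fermat.Agent.S56.EC
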