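import Fermat.Agent.S56.W2.EC.Cyclic.K0.Defs

/-!
# S56 / W2-EC / (D) / `K₀` toolkit: the Maschke package, part 1 (helper14)

`Γ` finite of order prime to `p`.

* `msk_exists_section` : an equivariant surjection of finite `𝔽_p[Γ]`-modules has an equivariant
  additive section (averaging);
* `msk_exists_retraction` : an equivariant injection has an equivariant retraction;
* `msk_card_homC_pow` : `#Hom_Γ(A, B)` is a power of `p`, `p ^ pairC A B = #Hom_Γ(A, B)`;
* `pairC_right_isAdditive_pf` (T1), `pairC_left_isAdditive_pf` (T1').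
-/

set_option autoImplicit false
set_option linter.style.haveILetI false
set_option linter.unusedSectionVars false

noncomputable section

namespace Fermat.Agent.S56.EC

variable {p : ℕ} [Fact p.Prime] {Γ : Type} [Group Γ]

/-! ### Cardinalities -/

lemma msk_lin_card {G : Type} [AddCommGroup G] [Module (ZMod p) G] [Finite G] :
    ∃ k : ℕ, Nat.card G = p ^ k :=
  ⟨Module.finrank (ZMod p) G, by
    rw [Module.natCard_eq_pow_finrank (K := ZMod p) (V := G), Nat.card_zmod]⟩

lemma msk_lin_section {E B : Type} [AddCommGroup E] [AddCommGroup B]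
    [Module (ZMod p) E] [Module (ZMod p) B] (q : E →+ B) (hsurj : Function.Surjective q) :
    ∃ s : B →+ E, ∀ b, q (s b) = b := by
  obtain ⟨sL, hsL⟩ := (q.toZModLinearMap p).exists_rightInverse_of_surjective
    (LinearMap.range_eq_top.2 hsurj)
  exact ⟨sL.toAddMonoidHom, fun b => LinearMap.congr_fun hsL b⟩

lemma msk_lin_retraction {A E : Type} [AddCommGroup A] [AddCommGroup E]
    [Module (ZMod p) A] [Module (ZMod p) E] (i : A →+ E) (hinj : Function.Injective i) :
    ∃ r : E →+ A, ∀ a, r (i a) = a := by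
  obtain ⟨rL, hrL⟩ := (i.toZModLinearMap p).exists_leftInverse_of_injective
    (LinearMap.ker_eq_bot.2 hinj)
  exact ⟨rL.toAddMonoidHom, fun a => LinearMap.congr_fun hrL a⟩

/-- A finite abelian group killed by `p` has `p`-power order. -/
lemma msk_card_pow {G : Type} [AddCommGroup G] [Finite G] (h : ∀ x : G, p • x = 0) :
    ∃ k : ℕ, Nat.card G = p ^ k := by
  letI : Module (ZMod p) G := AddCommGroup.zmodModule h
  exact msk_lin_card (p := p)

lemma msk_homC_killed (A B : FinCMod p Γ) (f : ↥(homC A B)) : p • f = 0 := by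
  apply Subtype.ext
  refine AddMonoidHom.ext fun a => ?_
  show p • (f : A.carrier →+ B.carrier) a = 0
  exact B.killed _

/-- `#Hom_Γ(A, B) = p ^ ⟨A, B⟩`. -/
lemma msk_card_homC (A B : FinCMod p Γ) :
    Nat.card ↥(homC A B) = p ^ (Nat.log p (Nat.card ↥(homC A B))) := by
  obtain ⟨k, hk⟩ := msk_card_pow (p := p) (msk_homC_killed A B)
  rw [hk, Nat.log_pow (Fact.out : p.Prime).one_lt]

/-- The order of the middle term of a short exact sequence. -/
lemma msk_card_exact {H₁ H₂ H₃ : Type} [AddCommGroup H₁] [AddCommGroup H₂] [AddCommGroup H₃]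
    (α : H₁ →+ H₂) (β : H₂ →+ H₃) (hα : Function.Injective α) (hβ : Function.Surjective β)
    (hex : ∀ x, β x = 0 ↔ x ∈ α.range) : Nat.card H₂ = Nat.card H₁ * Nat.card H₃ := by
  have h1 : Nat.card H₃ = Nat.card (H₂ ⧸ β.ker) :=
    Nat.card_congr (QuotientAddGroup.quotientKerEquivOfSurjective β hβ).symm.toEquiv
  have h2 : Nat.card H₁ = Nat.card β.ker := by
    have : β.ker = α.range := by
      ext x
      rw [AddMonoidHom.mem_ker]
      exact hex x
    rw [this]
    exact Nat.card_congr (AddMonoidHom.ofInjective hα).toEquiv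
  rw [h1, h2, mul_comm]
  exact AddSubgroup.card_eq_card_quotient_mul_card_addSubgroup β.ker

/-- Additivity of `log_p #` from a short exact sequence of `Hom` groups. -/
lemma msk_pairC_add {A₁ B₁ A₂ B₂ A₃ B₃ : FinCMod p Γ}
    (α : ↥(homC A₁ B₁) →+ ↥(homC A₂ B₂)) (β : ↥(homC A₂ B₂) →+ ↥(homC A₃ B₃))
    (hα : Function.Injective α) (hβ : Function.Surjective β)
    (hex : ∀ x, β x = 0 ↔ x ∈ α.range) :
    pairC A₂ B₂ = pairC A₁ B₁ + pairC A₃ B₃ := by
  have h := msk_card_exact α β hα hβ hex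
  rw [msk_card_homC A₁ B₁, msk_card_homC A₂ B₂, msk_card_homC A₃ B₃, ← pow_add] at h
  have h' := Nat.pow_right_injective (Fact.out : p.Prime).two_le h
  unfold pairC
  rw [h']
  push_cast
  ring

/-! ### Averaging -/

/-- An integer `m` inverting `|Γ|` on the groups killed by `p`. -/
lemma msk_exists_inv [Finite Γ] (hΓ : (Nat.card Γ).Coprime p) :
    ∃ m : ℕ, ∀ (G : Type) [AddCommGroup G], (∀ x : G, p • x = 0) →
      ∀ x : G, m • (Nat.card Γ • x) = x := by
  obtain ⟨m, -, hm⟩ := Nat.exists_mul_mod_eq_one_of_coprime hΓ (Fact.out : p.Prime).one_lt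
  refine ⟨m, fun G _ h x => ?_⟩
  have h1 := Nat.div_add_mod (Nat.card Γ * m) p
  rw [hm] at h1
  rw [← mul_nsmul, ← h1, add_nsmul, one_nsmul, mul_nsmul, h x, nsmul_zero, zero_add]

/-- The average `m • ∑ γ, γ ∘ f ∘ γ⁻¹` of an additive map is equivariant. -/
lemma msk_avg [Finite Γ] (X Y : FinCMod p Γ) (m : ℕ) (f : X.carrier →+ Y.carrier) :
    ∃ g : X.carrier →+ Y.carrier, g ∈ homC X Y ∧
      ∀ x, g x = m • ∑ᶠ γ : Γ, γ • f (γ⁻¹ • x) := by
  classical
  have : Fintype Γ := Fintype.ofFinite Γ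
  let t : X.carrier →+ Y.carrier :=
    { toFun := fun x => m • ∑ γ : Γ, γ • f (γ⁻¹ • x)
      map_zero' := by
        have h0 : ∀ γ : Γ, γ • f (γ⁻¹ • (0 : X.carrier)) = 0 := fun γ => by
          rw [smul_zero, map_zero, smul_zero]
        show m • ∑ γ : Γ, γ • f (γ⁻¹ • (0 : X.carrier)) = 0
        rw [Finset.sum_congr rfl (fun γ _ => h0 γ), Finset.sum_const_zero, nsmul_zero]
      map_add' := fun x y => by
        have h0 : ∀ γ : Γ, γ • f (γ⁻¹ • (x + y)) = γ • f (γ⁻¹ • x) + γ • f (γ⁻¹ • y) :=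
          fun γ => by rw [smul_add, map_add, smul_add]
        show m • ∑ γ : Γ, γ • f (γ⁻¹ • (x + y)) =
          m • ∑ γ : Γ, γ • f (γ⁻¹ • x) + m • ∑ γ : Γ, γ • f (γ⁻¹ • y)
        rw [Finset.sum_congr rfl (fun γ _ => h0 γ), Finset.sum_add_distrib, nsmul_add] }
  have ht : ∀ x, t x = m • ∑ γ : Γ, γ • f (γ⁻¹ • x) := fun x => rfl
  refine ⟨t, fun c x => ?_, fun x => ?_⟩
  · have hsum : ∑ γ : Γ, γ • f (γ⁻¹ • c • x) = ∑ γ : Γ, c • γ • f (γ⁻¹ • x) :=
      Fintype.sum_equiv (Equiv.mulLeft c⁻¹) (fun γ : Γ => γ • f (γ⁻¹ • c • x))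
        (fun γ : Γ => c • γ • f (γ⁻¹ • x)) (fun γ => by
          show γ • f (γ⁻¹ • c • x) = c • (c⁻¹ * γ) • f ((c⁻¹ * γ)⁻¹ • x)
          rw [smul_smul, smul_smul, mul_inv_cancel_left, mul_inv_rev, inv_inv])
    rw [ht, ht, hsum, ← Finset.smul_sum]
    exact (smul_comm c m _).symm
  · rw [ht, finsum_eq_sum_of_fintype]

/-- **Maschke, section form.** -/
theorem msk_exists_section [Finite Γ] (hΓ : (Nat.card Γ).Coprime p) (E B : FinCMod p Γ)
    (q : E.carrier →+ B.carrier) (hq : ∀ (c : Γ) (e : E.carrier), q (c • e) = c • q e)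
    (hsurj : Function.Surjective q) :
    ∃ s : B.carrier →+ E.carrier, s ∈ homC B E ∧ ∀ b, q (s b) = b := by
  classical
  have : Fintype Γ := Fintype.ofFinite Γ
  obtain ⟨sL, hs₀⟩ : ∃ s : B.carrier →+ E.carrier, ∀ b, q (s b) = b := by
    letI : Module (ZMod p) E.carrier := AddCommGroup.zmodModule E.killed
    letI : Module (ZMod p) B.carrier := AddCommGroup.zmodModule B.killed
    exact msk_lin_section (p := p) q hsurj
  obtain ⟨m, hm⟩ := msk_exists_inv (p := p) hΓ
  obtain ⟨s, hs, hsx⟩ := msk_avg B E m sL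
  refine ⟨s, hs, fun b => ?_⟩
  rw [hsx, finsum_eq_sum_of_fintype, map_nsmul, map_sum]
  have h1 : ∀ γ : Γ, q (γ • sL (γ⁻¹ • b)) = b := fun γ => by
    rw [hq, hs₀, smul_inv_smul]
  rw [Finset.sum_congr rfl (fun γ _ => h1 γ), Finset.sum_const, Finset.card_univ,
    ← Nat.card_eq_fintype_card]
  exact hm B.carrier B.killed b

/-- **Maschke, retraction form.** -/
theorem msk_exists_retraction [Finite Γ] (hΓ : (Nat.card Γ).Coprime p) (A E : FinCMod p Γ)
    (i : A.carrier →+ E.carrier) (hi : ∀ (c : Γ) (a : A.carrier), i (c • a) = c • i a)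
    (hinj : Function.Injective i) :
    ∃ r : E.carrier →+ A.carrier, r ∈ homC E A ∧ ∀ a, r (i a) = a := by
  classical
  have : Fintype Γ := Fintype.ofFinite Γ
  obtain ⟨rL, hr₀⟩ : ∃ r : E.carrier →+ A.carrier, ∀ a, r (i a) = a := by
    letI : Module (ZMod p) E.carrier := AddCommGroup.zmodModule E.killed
    letI : Module (ZMod p) A.carrier := AddCommGroup.zmodModule A.killed
    exact msk_lin_retraction (p := p) i hinj
  obtain ⟨m, hm⟩ := msk_exists_inv (p := p) hΓ
  obtain ⟨r, hr, hrx⟩ := msk_avg E A m rL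
  refine ⟨r, hr, fun a => ?_⟩
  rw [hrx, finsum_eq_sum_of_fintype]
  have h1 : ∀ γ : Γ, γ • rL (γ⁻¹ • i a) = a := fun γ => by
    rw [← hi, hr₀, smul_inv_smul]
  rw [Finset.sum_congr rfl (fun γ _ => h1 γ), Finset.sum_const, Finset.card_univ,
    ← Nat.card_eq_fintype_card]
  exact hm A.carrier A.killed a

/-! ### Composition maps between `Hom` groups -/

/-- Post-composition with an equivariant map. -/
def msk_post (Y : FinCMod p Γ) {A B : FinCMod p Γ} (f : A.carrier →+ B.carrier)
    (hf : f ∈ homC A B) : ↥(homC Y A) →+ ↥(homC Y B) where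
  toFun g := ⟨f.comp g.1, fun c y => by
    show f (g.1 (c • y)) = c • f (g.1 y)
    rw [g.2 c y, hf c]⟩
  map_zero' := by
    apply Subtype.ext
    refine AddMonoidHom.ext fun y => ?_
    show f ((0 : Y.carrier →+ A.carrier) y) = 0
    rw [AddMonoidHom.zero_apply, map_zero]
  map_add' g h := by
    apply Subtype.ext
    refine AddMonoidHom.ext fun y => ?_
    show f ((g.1 + h.1) y) = f (g.1 y) + f (h.1 y)
    rw [AddMonoidHom.add_apply, map_add]

@[simp] lemma msk_post_apply (Y : FinCMod p Γ) {A B : FinCMod p Γ} (f : A.carrier →+ B.carrier)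
    (hf : f ∈ homC A B) (g : ↥(homC Y A)) (y : Y.carrier) :
    (msk_post Y f hf g).1 y = f (g.1 y) := rfl

/-- Pre-composition with an equivariant map. -/
def msk_pre (X : FinCMod p Γ) {A B : FinCMod p Γ} (f : A.carrier →+ B.carrier)
    (hf : f ∈ homC A B) : ↥(homC B X) →+ ↥(homC A X) where
  toFun g := ⟨g.1.comp f, fun c a => by
    show g.1 (f (c • a)) = c • g.1 (f a)
    rw [hf c, g.2 c]⟩
  map_zero' := by
    apply Subtype.ext
    refine AddMonoidHom.ext fun y => ?_
    rfl
  map_add' g h := by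
    apply Subtype.ext
    refine AddMonoidHom.ext fun y => ?_
    rfl

@[simp] lemma msk_pre_apply (X : FinCMod p Γ) {A B : FinCMod p Γ} (f : A.carrier →+ B.carrier)
    (hf : f ∈ homC A B) (g : ↥(homC B X)) (a : A.carrier) :
    (msk_pre X f hf g).1 a = g.1 (f a) := rfl

/-! ### T1, T1' -/

/-- **(T1)** `M ↦ ⟨Y, M⟩` is additive. -/
theorem pairC_right_isAdditive_pf [Finite Γ] (hΓ : (Nat.card Γ).Coprime p) (Y : FinCMod p Γ) :
    IsAdditive (fun M : FinCMod p Γ => pairC Y M) := by
  intro A E B i q hi hq hinj hsurj hex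
  show pairC Y E = pairC Y A + pairC Y B
  obtain ⟨s, hs, hqs⟩ := msk_exists_section hΓ E B q hq hsurj
  obtain ⟨r, hr, hri⟩ := msk_exists_retraction hΓ A E i hi hinj
  refine msk_pairC_add (msk_post Y i hi) (msk_post Y q hq) ?_ ?_ ?_
  · intro f g hfg
    apply Subtype.ext
    refine AddMonoidHom.ext fun y => hinj ?_
    have := congrArg (fun h : ↥(homC Y E) => h.1 y) hfg
    exact this
  · intro h
    refine ⟨msk_post Y s hs h, ?_⟩
    apply Subtype.ext
    refine AddMonoidHom.ext fun y => ?_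
    show q (s (h.1 y)) = h.1 y
    exact hqs _
  · intro g
    constructor
    · intro hg
      refine ⟨msk_post Y r hr g, ?_⟩
      apply Subtype.ext
      refine AddMonoidHom.ext fun y => ?_
      show i (r (g.1 y)) = g.1 y
      have h0 : q (g.1 y) = 0 := by
        have := congrArg (fun h : ↥(homC Y B) => h.1 y) hg
        exact this
      obtain ⟨a, ha⟩ := (hex _).1 h0
      rw [← ha, hri]
    · rintro ⟨f, rfl⟩
      apply Subtype.ext
      refine AddMonoidHom.ext fun y => ?_
      show q (i (f.1 y)) = 0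
      exact (hex _).2 ⟨_, rfl⟩

/-- **(T1')** `M ↦ ⟨M, X⟩` is additive. -/
theorem pairC_left_isAdditive_pf [Finite Γ] (hΓ : (Nat.card Γ).Coprime p) (X : FinCMod p Γ) :
    IsAdditive (fun M : FinCMod p Γ => pairC M X) := by
  intro A E B i q hi hq hinj hsurj hex
  show pairC E X = pairC A X + pairC B X
  obtain ⟨s, hs, hqs⟩ := msk_exists_section hΓ E B q hq hsurj
  obtain ⟨r, hr, hri⟩ := msk_exists_retraction hΓ A E i hi hinj
  rw [add_comm]
  refine msk_pairC_add (msk_pre X q hq) (msk_pre X i hi) ?_ ?_ ?_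
  · intro f g hfg
    apply Subtype.ext
    refine AddMonoidHom.ext fun b => ?_
    obtain ⟨e, rfl⟩ := hsurj b
    have := congrArg (fun h : ↥(homC E X) => h.1 e) hfg
    exact this
  · intro h
    refine ⟨msk_pre X r hr h, ?_⟩
    apply Subtype.ext
    refine AddMonoidHom.ext fun a => ?_
    show h.1 (r (i a)) = h.1 a
    rw [hri]
  · intro g
    constructor
    · intro hg
      refine ⟨msk_pre X s hs g, ?_⟩
      apply Subtype.ext
      refine AddMonoidHom.ext fun e => ?_
      show g.1 (s (q e)) = g.1 e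
      have h0 : q (e - s (q e)) = 0 := by
        rw [map_sub, hqs, sub_self]
      obtain ⟨a, ha⟩ := (hex _).1 h0
      have h1 : g.1 (i a) = 0 := by
        have := congrArg (fun h : ↥(homC A X) => h.1 a) hg
        exact this
      rw [ha, map_sub, sub_eq_zero] at h1
      exact h1.symm
    · rintro ⟨f, rfl⟩
      apply Subtype.ext
      refine AddMonoidHom.ext fun a => ?_
      show f.1 (q (i a)) = 0
      rw [(hex _).2 ⟨_, rfl⟩, map_zero]

end Fermat.Agent.S56.EC
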